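import Fermat.Agent.LT.T7.H837.ClassOpGen

/-!
# Row LT, tower T7, node T7.L2.2 SPEC-UP, leaf T7.L2.2.N.S3 `ClassOpC` (helper837, OFF-MAIN)

`classOpC837 : T7.H963.ClassOpC K` (spec: helper963@8d178033b `LT/T7/H963/Simple.lean`): the class
of the invariant cusp functions with given eigen-data is stable under the operators of the double
cosets of the level group at the bad places and of the Iwahori subgroups along the orbit.

Proof: the general criterion `isEigFn_cosetOp837` (`ClassOpGen.lean`) and the permutation of a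
full system of representatives by a left translation (`sum_perm837`).
-/

set_option autoImplicit false
set_option linter.style.haveILetI false
set_option linter.unusedSectionVars false
set_option linter.unusedVariables false

open IsDedekindDomain NumberField MeasureTheory AutomorphicForm
open Fermat.Agent.LT.H556.A0

noncomputable section

namespace Fermat.Agent.LT.T7.H837

open Fermat.Agent.LT Fermat.Agent.LT.H129 Fermat.Agent.LT.T2.H333 Fermat.Agent.LT.T2.H429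
open Fermat.Agent.LT.T7.H963 Fermat.Agent.LT.T7.H83

variable {K : Type} [Field K] [NumberField K]

/-! ## 8. The permutation lemma -/

/-- A left translation `a` which maps every class `x Q` of the system into a class `x' Q` of the
system, with `ψ` invariant under the transition elements, permutes the sum over the system. -/
theorem sum_perm837 {ψ : G K → ℂ} {H : Finset (G K)} {Q : G K → Prop} {a : G K}
    (hQ : ∀ c₁ c₂ : G K, Q c₁ → Q c₂ → Q (c₁⁻¹ * c₂))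
    (hsep : ∀ x ∈ H, ∀ x' ∈ H, x ≠ x' → ¬ Q (x⁻¹ * x'))
    (hstep : ∀ x ∈ H, ∃ x' ∈ H, Q (x'⁻¹ * (a * x)) ∧
      ∀ y : G K, ψ (y * (x'⁻¹ * (a * x))) = ψ y)
    (y : G K) : ∑ x ∈ H, ψ (y * a * x) = ∑ x ∈ H, ψ (y * x) := by
  classical
  choose! σ hσ using hstep
  have hinj : ∀ x₁ ∈ H, ∀ x₂ ∈ H, σ x₁ = σ x₂ → x₁ = x₂ := by
    intro x₁ h₁ x₂ h₂ e
    by_contra hne
    apply hsep x₁ h₁ x₂ h₂ hne
    have h := hQ _ _ (hσ x₁ h₁).2.1 (hσ x₂ h₂).2.1
    rw [e] at h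
    have e' : ((σ x₂)⁻¹ * (a * x₁))⁻¹ * ((σ x₂)⁻¹ * (a * x₂)) = x₁⁻¹ * x₂ := by group
    rw [e'] at h
    exact h
  have himg : H.image σ = H := by
    apply Finset.eq_of_subset_of_card_le
    · intro z hz
      obtain ⟨x, hx, rfl⟩ := Finset.mem_image.1 hz
      exact (hσ x hx).1
    · rw [Finset.card_image_of_injOn (fun x₁ h₁ x₂ h₂ e => hinj x₁ h₁ x₂ h₂ e)]
  calc ∑ x ∈ H, ψ (y * a * x) = ∑ x ∈ H, ψ (y * σ x) := by
        refine Finset.sum_congr rfl fun x hx => ?_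
        have h := (hσ x hx).2.2 (y * σ x)
        rw [← h]
        congr 1
        group
    _ = ∑ z ∈ H.image σ, ψ (y * z) :=
        (Finset.sum_image (f := fun z => ψ (y * z)) hinj).symm
    _ = ∑ x ∈ H, ψ (y * x) := by rw [himg]

/-! ## 9. The double cosets of the level group at the bad places -/

theorem isGoodSet_of_bad837 {𝔫 : Ideal (𝓞 K)} {r : G K} {l : ℕ}
    {o : ℕ → HeightOneSpectrum (𝓞 K)} {C : EigData K} {ψ : G K → ℂ} {g : G K}
    {H : Finset (G K)} (ho : ∀ j < l, (o j).asIdeal ∣ 𝔫) (hψ : IsEigFn 𝔫 r l o ψ C)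
    (hg : IsBadAt 𝔫 l o g) (hH : IsDblCosetSystem 𝔫 g H) : IsGoodSet837 𝔫 l o ψ H := by
  refine ⟨?_, ?_, ?_, ?_⟩
  · intro h hh w
    obtain ⟨u₁, u₂, hu₁, hu₂, rfl⟩ := hH.1 h hh
    exact trivAtInf_mul837 (trivAtInf_mul837 (hu₁.1 w) (hg.1 w)) (hu₂.1 w)
  · intro h hh v hv
    obtain ⟨u₁, u₂, hu₁, hu₂, rfl⟩ := hH.1 h hh
    have hgv : TrivAtFin v g := hg.2 v (Or.inl hv)
    refine ⟨isIntegralAt_mul837 (isIntegralAt_mul837 (isIntegralAt_of_inLevelGroup837 hu₁ v)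
      (isIntegralAt_of_trivAtFin837 hgv)) (isIntegralAt_of_inLevelGroup837 hu₂ v), ?_⟩
    rw [mul_inv_rev, mul_inv_rev]
    exact isIntegralAt_mul837 (isIntegralAt_of_inLevelGroup837 (inLevelGroup_inv837 hu₂) v)
      (isIntegralAt_mul837 (isIntegralAt_of_trivAtFin837 (trivAtFin_inv837 hgv))
        (isIntegralAt_of_inLevelGroup837 (inLevelGroup_inv837 hu₁) v))
  · intro u hu x
    refine sum_perm837 (Q := InLevelGroup 𝔫)
      (fun c₁ c₂ h₁ h₂ => inLevelGroup_mul837 (inLevelGroup_inv837 h₁) h₂) hH.2.1 ?_ x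
    intro h hh
    obtain ⟨u₁, u₂, hu₁, hu₂, rfl⟩ := hH.1 h hh
    obtain ⟨x', hx', hI⟩ := hH.2.2 (u * u₁) (inLevelGroup_mul837 hu hu₁)
    have e : x'⁻¹ * (u * (u₁ * g * u₂)) = x'⁻¹ * (u * u₁ * g) * u₂ := by group
    have hc : InLevelGroup 𝔫 (x'⁻¹ * (u * (u₁ * g * u₂))) := by
      rw [e]
      exact inLevelGroup_mul837 hI hu₂
    exact ⟨x', hx', hc, fun y => hψ.inv.cusp.aut.level_inv _ hc y⟩
  · intro k hk1 hk2 hk3 x
    refine Finset.sum_congr rfl fun h hh => ?_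
    obtain ⟨u₁, u₂, hu₁, hu₂, rfl⟩ := hH.1 h hh
    obtain ⟨h, hdef⟩ : ∃ h : G K, h = u₁ * g * u₂ := ⟨_, rfl⟩
    rw [← hdef]
    have hI : ∀ j < l, T5.InIwahori (o j) h := by
      intro j hj
      rw [hdef]
      exact inIwahori_mul83 _ (inIwahori_mul83 _ (inIwahori_of_inLevelGroup837 (ho j hj) hu₁)
        (inIwahori_of_trivAtFin83 _ (hg.2 (o j) (Or.inr ⟨j, hj, rfl⟩))))
        (inIwahori_of_inLevelGroup837 (ho j hj) hu₂)
    have e : x * k * h = x * h * (h⁻¹ * k * h) := by group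
    rw [e]
    exact hψ.inv.iw (h⁻¹ * k * h) (fun w => trivAtInf_conj837 h (hk1 w))
      (fun v hv => trivAtFin_conj837 h (hk2 v hv))
      (fun j hj => inIwahori_mul83 _ (inIwahori_mul83 _ (inIwahori_inv83 _ (hI j hj))
        (hk3 j hj)) (hI j hj)) (x * h)

/-! ## 10. The double cosets of the Iwahori subgroups along the orbit -/

/-- An element of the Iwahori subgroup at `w₀` lies in the Iwahori subgroup at every place. -/
theorem inIwahori_of_isIwElt837 {w₀ : HeightOneSpectrum (𝓞 K)} {κ : G K} (hκ : IsIwElt w₀ κ)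
    (w : HeightOneSpectrum (𝓞 K)) : T5.InIwahori w κ := by
  by_cases e : w = w₀
  · rw [e]
    exact hκ.2
  · exact inIwahori_of_trivAtFin83 _ (hκ.1.2 w e)

/-- The component at `w₀` of an element of the Iwahori subgroup at `w₀`. -/
theorem isIwElt_loc837 {w₀ : HeightOneSpectrum (𝓞 K)} {a : G K} (ha : T5.InIwahori w₀ a) :
    IsIwElt w₀ (locFin129 w₀ (finCompHom129 w₀ a)) := by
  refine ⟨isLocalAtFin_locFin129 w₀ _, inIwahori_congr83 w₀ ?_ ha⟩
  rw [finComp_locFin129, coe_finCompHom129]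

/-- The complement of the component at `w₀` is trivial at `w₀`. -/
theorem trivAtFin_strip837 (w₀ : HeightOneSpectrum (𝓞 K)) (a : G K) :
    TrivAtFin w₀ ((locFin129 w₀ (finCompHom129 w₀ a))⁻¹ * a) := by
  rw [trivAtFin_iff129, map_mul, map_inv, finCompHom129_locFin129, inv_mul_cancel]

/-- The complement of the component at `w₀` away from `w₀`. -/
theorem finComp_strip837 (w₀ : HeightOneSpectrum (𝓞 K)) (a : G K)
    {v : HeightOneSpectrum (𝓞 K)} (hv : v ≠ w₀) :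
    finCompHom129 v ((locFin129 w₀ (finCompHom129 w₀ a))⁻¹ * a) = finCompHom129 v a := by
  rw [map_mul, map_inv, finCompHom129_locFin129_of_ne w₀ _ hv, inv_one, one_mul]

/-- The permutation of an Iwahori double coset system by an element whose component at `w₀`
lies in the Iwahori subgroup. -/
theorem sum_iw_perm837 {w₀ : HeightOneSpectrum (𝓞 K)} {h : G K} {H : Finset (G K)}
    (hh : IsLocalAtFin w₀ h) (hH : IsIwDblSystem w₀ h H) {ψ : G K → ℂ} {a : G K}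
    (ha : T5.InIwahori w₀ a)
    (hinv : ∀ κ : G K, IsIwElt w₀ κ → ∀ y : G K,
      ψ (y * (κ * ((locFin129 w₀ (finCompHom129 w₀ a))⁻¹ * a))) = ψ y)
    (y : G K) : ∑ x ∈ H, ψ (y * a * x) = ∑ x ∈ H, ψ (y * x) := by
  have ha₀ := isIwElt_loc837 ha
  have ha' := trivAtFin_strip837 w₀ a
  obtain ⟨a₀, ha₀def⟩ : ∃ a₀ : G K, a₀ = locFin129 w₀ (finCompHom129 w₀ a) := ⟨_, rfl⟩
  rw [← ha₀def] at ha₀ ha' hinv
  have hloc : ∀ x ∈ H, IsLocalAtFin w₀ x := by
    intro x hx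
    obtain ⟨k₁, k₂, hk₁, hk₂, rfl⟩ := hH.1 x hx
    exact isLocalAtFin_mul129 (isLocalAtFin_mul129 hk₁.1 hh) hk₂.1
  refine sum_perm837 (Q := T5.InIwahori w₀)
    (fun c₁ c₂ h₁ h₂ => inIwahori_mul83 w₀ (inIwahori_inv83 w₀ h₁) h₂) hH.2.1 ?_ y
  intro x hx
  have hxloc := hloc x hx
  obtain ⟨k₁, k₂, hk₁, hk₂, hxe⟩ := hH.1 x hx
  obtain ⟨x', hx', hI⟩ := hH.2.2 (a₀ * k₁)
    ⟨isLocalAtFin_mul129 ha₀.1 hk₁.1, inIwahori_mul83 w₀ ha₀.2 hk₁.2⟩
  have hc : x * (a₀⁻¹ * a) = a₀⁻¹ * a * x := comm_of_local_triv333 hxloc ha'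
  have e : x'⁻¹ * (a * x) = x'⁻¹ * (a₀ * k₁ * h) * k₂ * (a₀⁻¹ * a) := by
    calc x'⁻¹ * (a * x) = x'⁻¹ * (a₀ * (a₀⁻¹ * a * x)) := by group
      _ = x'⁻¹ * (a₀ * (x * (a₀⁻¹ * a))) := by rw [hc]
      _ = x'⁻¹ * (a₀ * (k₁ * h * k₂ * (a₀⁻¹ * a))) := by rw [hxe]
      _ = x'⁻¹ * (a₀ * k₁ * h) * k₂ * (a₀⁻¹ * a) := by group
  have hκ : IsIwElt w₀ (x'⁻¹ * (a₀ * k₁ * h) * k₂) :=
    ⟨isLocalAtFin_mul129 (isLocalAtFin_mul129 (isLocalAtFin_inv129 (hloc x' hx'))
      (isLocalAtFin_mul129 (isLocalAtFin_mul129 ha₀.1 hk₁.1) hh)) hk₂.1,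
      inIwahori_mul83 w₀ hI hk₂.2⟩
  refine ⟨x', hx', ?_, ?_⟩
  · rw [e]
    exact inIwahori_mul83 w₀ hκ.2 (inIwahori_of_trivAtFin83 w₀ ha')
  · intro y
    rw [e]
    exact hinv _ hκ y

/-- The complement of the component at `w₀` of an element of the level group lies in the level
group. -/
theorem inLevelGroup_strip837 {𝔫 : Ideal (𝓞 K)} (w₀ : HeightOneSpectrum (𝓞 K)) {u : G K}
    (hu : InLevelGroup 𝔫 u) :
    InLevelGroup 𝔫 ((locFin129 w₀ (finCompHom129 w₀ u))⁻¹ * u) := by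
  have hloc := isLocalAtFin_locFin129 w₀ (finCompHom129 w₀ u)
  refine ⟨fun w => trivAtInf_mul837 (trivAtInf_inv837 (hloc.1 w)) (hu.1 w), fun v i j => ?_⟩
  by_cases hv : v = w₀
  · subst hv
    have h1 : finComp v ((locFin129 v (finCompHom129 v u))⁻¹ * u) = 1 :=
      trivAtFin_strip837 v u
    have h2 : finComp v ((locFin129 v (finCompHom129 v u))⁻¹ * u)⁻¹ = 1 :=
      trivAtFin_inv837 (trivAtFin_strip837 v u)
    rw [h1, h2, sub_self]
    exact ⟨zero_mem_idealClosure333 𝔫 v, zero_mem_idealClosure333 𝔫 v⟩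
  · have h1 : finComp v ((locFin129 w₀ (finCompHom129 w₀ u))⁻¹ * u) = finComp v u := by
      rw [← coe_finCompHom129, finComp_strip837 w₀ u hv, coe_finCompHom129]
    have h2 : finComp v ((locFin129 w₀ (finCompHom129 w₀ u))⁻¹ * u)⁻¹ = finComp v u⁻¹ := by
      rw [← coe_finCompHom129, ← coe_finCompHom129, map_inv, finComp_strip837 w₀ u hv,
        map_inv]
    rw [h1, h2]
    exact hu.2 v i j

theorem isGoodSet_of_iw837 {𝔫 : Ideal (𝓞 K)} {r : G K} {l : ℕ}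
    {o : ℕ → HeightOneSpectrum (𝓞 K)} {C : EigData K} {ψ : G K → ℂ} {j : ℕ} {h : G K}
    {H : Finset (G K)} (ho : ∀ j < l, (o j).asIdeal ∣ 𝔫) (hψ : IsEigFn 𝔫 r l o ψ C)
    (hj : j < l) (hh : IsLocalAtFin (o j) h) (hH : IsIwDblSystem (o j) h H) :
    IsGoodSet837 𝔫 l o ψ H := by
  have hloc : ∀ x ∈ H, IsLocalAtFin (o j) x := by
    intro x hx
    obtain ⟨k₁, k₂, hk₁, hk₂, rfl⟩ := hH.1 x hx
    exact isLocalAtFin_mul129 (isLocalAtFin_mul129 hk₁.1 hh) hk₂.1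
  have hne : ∀ v : HeightOneSpectrum (𝓞 K), ¬ v.asIdeal ∣ 𝔫 → v ≠ o j := by
    intro v hv e
    rw [e] at hv
    exact hv (ho j hj)
  refine ⟨fun x hx w => (hloc x hx).1 w, ?_, ?_, ?_⟩
  · intro x hx v hv
    exact ⟨isIntegralAt_of_trivAtFin837 ((hloc x hx).2 v (hne v hv)),
      isIntegralAt_of_trivAtFin837 ((isLocalAtFin_inv129 (hloc x hx)).2 v (hne v hv))⟩
  · intro u hu x
    refine sum_iw_perm837 hh hH (inIwahori_of_inLevelGroup837 (ho j hj) hu) ?_ x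
    intro κ hκ y
    rw [← mul_assoc, hψ.inv.cusp.aut.level_inv _ (inLevelGroup_strip837 (o j) hu)]
    exact isIwInvAt_of_isIwInv83 hψ.inv.iw hj κ hκ.1 hκ.2 y
  · intro k hk1 hk2 hk3 x
    refine sum_iw_perm837 hh hH (hk3 j hj) ?_ x
    intro κ hκ y
    have ha₀ := isIwElt_loc837 (hk3 j hj)
    refine hψ.inv.iw _ (fun w => ?_) (fun v hv => ?_) (fun j' hj' => ?_) y
    · exact trivAtInf_mul837 (hκ.1.1 w)
        (trivAtInf_mul837 (trivAtInf_inv837 (ha₀.1.1 w)) (hk1 w))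
    · exact trivAtFin_mul837 (hκ.1.2 v (hv j hj))
        (trivAtFin_mul837 (trivAtFin_inv837 (ha₀.1.2 v (hv j hj))) (hk2 v hv))
    · exact inIwahori_mul83 _ (inIwahori_of_isIwElt837 hκ (o j'))
        (inIwahori_mul83 _ (inIwahori_inv83 _ (inIwahori_of_isIwElt837 ha₀ (o j')))
          (hk3 j' hj'))

/-! ## 11. The leaf -/

/-- **LEAF T7.L2.2.N.S3 `ClassOpC`**: the class is stable under the Hecke operators at the bad
places and along the orbit. -/
theorem classOpC837 (K : Type) [Field K] [NumberField K] : T7.H963.ClassOpC K := by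
  intro 𝔫 r l o C h𝔫 hr ho ψ hψ
  exact ⟨fun g H hg hH => isEigFn_cosetOp837 hr hψ (isGoodSet_of_bad837 ho hψ hg hH),
    fun j h H hj hh hH => isEigFn_cosetOp837 hr hψ (isGoodSet_of_iw837 ho hψ hj hh hH)⟩

example (K : Type) [Field K] [NumberField K] : T7.H963.ClassOpC K := classOpC837 K

end Fermat.Agent.LT.T7.H837

end
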