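import Fermat.Agent.LT.T7.H963.Simple
import Fermat.Agent.LT.T7.H83.IwKit
import Fermat.Agent.LT.T2.H472.LocCont

/-!
# Row LT, tower T7, node T7.L2.2 SPEC-UP, leaf T7.L2.2.N.S3 `ClassOpC` (helper837, OFF-MAIN)

Basic kit: the level group and the Iwahori subgroups are groups, conjugation of Hecke coset
systems, finite sums of sphere means, the permutation lemma for sums over coset systems.
-/

set_option autoImplicit false
set_option linter.style.haveILetI false
set_option linter.unusedSectionVars false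
set_option linter.unusedVariables false

open IsDedekindDomain NumberField MeasureTheory AutomorphicForm
open Fermat.Agent.LT.H556.A0

noncomputable section

namespace Fermat.Agent.LT.T7.H837

open Fermat.Agent.LT Fermat.Agent.LT.H129 Fermat.Agent.LT.T2.H333 Fermat.Agent.LT.T2.H429

variable {K : Type} [Field K] [NumberField K]

/-! ## 1. Components -/

theorem finComp_conj837 (v : HeightOneSpectrum (𝓞 K)) (h t : G K) :
    finComp v (h⁻¹ * t * h) = finComp v h⁻¹ * finComp v t * finComp v h := by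
  rw [finComp_mul333, finComp_mul333]

theorem finComp_inv_mul837 (v : HeightOneSpectrum (𝓞 K)) (h : G K) :
    finComp v h⁻¹ * finComp v h = 1 := by
  rw [← finComp_mul333, inv_mul_cancel, finComp_one333]

theorem finComp_mul_inv837 (v : HeightOneSpectrum (𝓞 K)) (h : G K) :
    finComp v h * finComp v h⁻¹ = 1 := by
  rw [← finComp_mul333, mul_inv_cancel, finComp_one333]

theorem trivAtInf_one837 (w : InfinitePlace K) : TrivAtInf w (1 : G K) := by
  rw [trivAtInf_iff129, map_one]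

theorem trivAtFin_one837 (v : HeightOneSpectrum (𝓞 K)) : TrivAtFin v (1 : G K) := by
  rw [trivAtFin_iff129, map_one]

theorem trivAtInf_mul837 {w : InfinitePlace K} {g h : G K} (hg : TrivAtInf w g)
    (hh : TrivAtInf w h) : TrivAtInf w (g * h) := by
  rw [trivAtInf_iff129] at hg hh ⊢
  rw [map_mul, hg, hh, mul_one]

theorem trivAtInf_inv837 {w : InfinitePlace K} {g : G K} (hg : TrivAtInf w g) :
    TrivAtInf w g⁻¹ := by
  rw [trivAtInf_iff129] at hg ⊢
  rw [map_inv, hg, inv_one]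

theorem trivAtFin_mul837 {v : HeightOneSpectrum (𝓞 K)} {g h : G K} (hg : TrivAtFin v g)
    (hh : TrivAtFin v h) : TrivAtFin v (g * h) := by
  rw [trivAtFin_iff129] at hg hh ⊢
  rw [map_mul, hg, hh, mul_one]

theorem trivAtFin_inv837 {v : HeightOneSpectrum (𝓞 K)} {g : G K} (hg : TrivAtFin v g) :
    TrivAtFin v g⁻¹ := by
  rw [trivAtFin_iff129] at hg ⊢
  rw [map_inv, hg, inv_one]

/-- Conjugation of an element which is trivial at `w` (infinite). -/
theorem trivAtInf_conj837 {w : InfinitePlace K} (h : G K) {t : G K} (ht : TrivAtInf w t) :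
    TrivAtInf w (h⁻¹ * t * h) := by
  rw [trivAtInf_iff129] at ht ⊢
  rw [map_mul, map_mul, map_inv, ht, mul_one, inv_mul_cancel]

/-- Conjugation of an element which is trivial at `v` (finite). -/
theorem trivAtFin_conj837 {v : HeightOneSpectrum (𝓞 K)} (h : G K) {t : G K}
    (ht : TrivAtFin v t) : TrivAtFin v (h⁻¹ * t * h) := by
  rw [trivAtFin_iff129] at ht ⊢
  rw [map_mul, map_mul, map_inv, ht, mul_one, inv_mul_cancel]

theorem isLocalAtFin_conj837 {v : HeightOneSpectrum (𝓞 K)} (h : G K) {t : G K}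
    (ht : IsLocalAtFin v t) : IsLocalAtFin v (h⁻¹ * t * h) :=
  ⟨fun w => trivAtInf_conj837 h (ht.1 w), fun v' hv' => trivAtFin_conj837 h (ht.2 v' hv')⟩

theorem isLocalAtInf_conj837 {w : InfinitePlace K} (h : G K) {t : G K}
    (ht : IsLocalAtInf w t) : IsLocalAtInf w (h⁻¹ * t * h) :=
  ⟨fun w' hw' => trivAtInf_conj837 h (ht.1 w' hw'), fun v => trivAtFin_conj837 h (ht.2 v)⟩

/-- An element which is trivial at infinity commutes with an element supported at infinity. -/
theorem comm_inf837 {w : InfinitePlace K} {k h : G K} (hk : IsLocalAtInf w k)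
    (hh : ∀ w' : InfinitePlace K, TrivAtInf w' h) : k * h = h * k := by
  apply commute_of_disjoint429
  · intro w'
    exact Or.inr ((trivAtInf_iff129 w' h).1 (hh w'))
  · intro v
    exact Or.inl ((trivAtFin_iff129 v k).1 (hk.2 v))

/-! ## 2. Integrality -/

theorem isIntegralAt_one837 (v : HeightOneSpectrum (𝓞 K)) : IsIntegralAt v (1 : G K) := by
  intro i j
  rw [finComp_one333]
  by_cases hij : i = j
  · subst hij
    simp only [Matrix.one_apply_eq]
    exact (v.adicCompletionIntegers K).one_mem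
  · simp only [Matrix.one_apply_ne hij]
    exact (v.adicCompletionIntegers K).zero_mem

theorem isIntegralAt_mul837 {v : HeightOneSpectrum (𝓞 K)} {g h : G K} (hg : IsIntegralAt v g)
    (hh : IsIntegralAt v h) : IsIntegralAt v (g * h) := by
  intro i j
  rw [finComp_mul333, Matrix.mul_apply]
  exact Subring.sum_mem _ fun k _ => Subring.mul_mem _ (hg i k) (hh k j)

theorem isIntegralAt_of_trivAtFin837 {v : HeightOneSpectrum (𝓞 K)} {g : G K}
    (hg : TrivAtFin v g) : IsIntegralAt v g := by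
  intro i j
  have := isIntegralAt_one837 (K := K) v i j
  rw [finComp_one333] at this
  rw [show finComp v g = 1 from hg]
  exact this


/-! ## 3. The level group is a group -/

theorem add_mem_idealClosure837 {𝔫 : Ideal (𝓞 K)} {v : HeightOneSpectrum (𝓞 K)}
    {a b : v.adicCompletion K} (ha : a ∈ idealClosure 𝔫 v) (hb : b ∈ idealClosure 𝔫 v) :
    a + b ∈ idealClosure 𝔫 v := by
  unfold idealClosure at *
  refine map_mem_closure₂ continuous_add ha hb ?_
  rintro _ ⟨x, hx, rfl⟩ _ ⟨y, hy, rfl⟩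
  refine ⟨x + y, 𝔫.add_mem hx hy, ?_⟩
  simp only [map_add]

theorem mul_mem_idealClosure837 {𝔫 : Ideal (𝓞 K)} {v : HeightOneSpectrum (𝓞 K)}
    {a b : v.adicCompletion K} (ha : a ∈ idealClosure 𝔫 v) (hb : b ∈ idealClosure 𝔫 v) :
    a * b ∈ idealClosure 𝔫 v := by
  unfold idealClosure at *
  refine map_mem_closure₂ continuous_mul ha hb ?_
  rintro _ ⟨x, hx, rfl⟩ _ ⟨y, hy, rfl⟩
  refine ⟨x * y, 𝔫.mul_mem_left x hy, ?_⟩
  simp only [map_mul]

theorem sum_mem_idealClosure837 {𝔫 : Ideal (𝓞 K)} {v : HeightOneSpectrum (𝓞 K)}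
    {ι : Type*} (s : Finset ι) (f : ι → v.adicCompletion K)
    (h : ∀ i ∈ s, f i ∈ idealClosure 𝔫 v) : ∑ i ∈ s, f i ∈ idealClosure 𝔫 v :=
  Finset.sum_induction f (fun x => x ∈ idealClosure 𝔫 v)
    (fun _ _ ha hb => add_mem_idealClosure837 ha hb) (zero_mem_idealClosure333 𝔫 v) h

/-- `M, N ≡ 1` modulo the closure of `𝔫` implies `M N ≡ 1`. -/
theorem mul_sub_one_mem837 {𝔫 : Ideal (𝓞 K)} {v : HeightOneSpectrum (𝓞 K)}
    {M N : Matrix (Fin 2) (Fin 2) (v.adicCompletion K)}
    (hM : ∀ i j, (M - 1) i j ∈ idealClosure 𝔫 v) (hN : ∀ i j, (N - 1) i j ∈ idealClosure 𝔫 v)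
    (i j : Fin 2) : (M * N - 1) i j ∈ idealClosure 𝔫 v := by
  have e : M * N - 1 = (M - 1) * (N - 1) + (M - 1) + (N - 1) := by noncomm_ring
  rw [e, Matrix.add_apply, Matrix.add_apply, Matrix.mul_apply]
  refine add_mem_idealClosure837 (add_mem_idealClosure837 ?_ (hM i j)) (hN i j)
  exact sum_mem_idealClosure837 _ _ fun k _ => mul_mem_idealClosure837 (hM i k) (hN k j)

theorem inLevelGroup_one837 (𝔫 : Ideal (𝓞 K)) : InLevelGroup 𝔫 (1 : G K) := by
  refine ⟨fun w => trivAtInf_one837 w, fun v i j => ?_⟩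
  rw [inv_one, finComp_one333, sub_self]
  exact ⟨zero_mem_idealClosure333 𝔫 v, zero_mem_idealClosure333 𝔫 v⟩

theorem inLevelGroup_inv837 {𝔫 : Ideal (𝓞 K)} {u : G K} (hu : InLevelGroup 𝔫 u) :
    InLevelGroup 𝔫 u⁻¹ := by
  refine ⟨fun w => trivAtInf_inv837 (hu.1 w), fun v i j => ⟨(hu.2 v i j).2, ?_⟩⟩
  rw [inv_inv]
  exact (hu.2 v i j).1

theorem inLevelGroup_mul837 {𝔫 : Ideal (𝓞 K)} {u u' : G K} (hu : InLevelGroup 𝔫 u)
    (hu' : InLevelGroup 𝔫 u') : InLevelGroup 𝔫 (u * u') := by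
  refine ⟨fun w => trivAtInf_mul837 (hu.1 w) (hu'.1 w), fun v i j => ⟨?_, ?_⟩⟩
  · rw [finComp_mul333]
    exact mul_sub_one_mem837 (fun i j => (hu.2 v i j).1) (fun i j => (hu'.2 v i j).1) i j
  · rw [mul_inv_rev, finComp_mul333]
    exact mul_sub_one_mem837 (fun i j => (hu'.2 v i j).2) (fun i j => (hu.2 v i j).2) i j

theorem isIntegralAt_of_inLevelGroup837 {𝔫 : Ideal (𝓞 K)} {u : G K} (hu : InLevelGroup 𝔫 u)
    (v : HeightOneSpectrum (𝓞 K)) : IsIntegralAt v u := fun i j =>
  T2.H439.int_of_sub_one439 𝔫 v (finComp v u) (fun i j => (hu.2 v i j).1) i j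

/-- At a place dividing the level the closure of the level lies in the maximal ideal. -/
theorem val_lt_one_of_mem_idealClosure837 {𝔫 : Ideal (𝓞 K)} {w : HeightOneSpectrum (𝓞 K)}
    (hw : w.asIdeal ∣ 𝔫) {x : w.adicCompletion K} (hx : x ∈ idealClosure 𝔫 w) :
    Valued.v x < 1 := by
  have hsub : ((fun a : 𝓞 K => algebraMap K (w.adicCompletion K) (algebraMap (𝓞 K) K a)) ''
      (𝔫 : Set (𝓞 K))) ⊆ {x : w.adicCompletion K | Valued.v x < 1} := by
    rintro _ ⟨a, ha, rfl⟩
    show Valued.v (algebraMap K (w.adicCompletion K) (algebraMap (𝓞 K) K a)) < 1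
    have h1 : Valued.v (algebraMap K (w.adicCompletion K) (algebraMap (𝓞 K) K a))
        = w.valuation K (algebraMap (𝓞 K) K a) :=
      HeightOneSpectrum.valuedAdicCompletion_eq_valuation' w _
    rw [h1, HeightOneSpectrum.valuation_of_algebraMap]
    exact (w.intValuation_lt_one_iff_mem a).2 (Ideal.le_of_dvd hw ha)
  have hcl : IsClosed {x : w.adicCompletion K | Valued.v x < 1} := by
    have h := Valued.isClosed_ball (w.adicCompletion K) 1
    simp only [Valuation.restrict_lt_one_iff] at h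
    exact h
  exact closure_minimal hsub hcl hx

theorem inIwahori_of_inLevelGroup837 {𝔫 : Ideal (𝓞 K)} {w : HeightOneSpectrum (𝓞 K)}
    (hw : w.asIdeal ∣ 𝔫) {u : G K} (hu : InLevelGroup 𝔫 u) : T5.InIwahori w u := by
  refine ⟨isIntegralAt_of_inLevelGroup837 hu w,
    isIntegralAt_of_inLevelGroup837 (inLevelGroup_inv837 hu) w, ?_⟩
  have h := (hu.2 w 1 0).1
  rw [Matrix.sub_apply, Matrix.one_apply_ne (by decide : (1 : Fin 2) ≠ 0), sub_zero] at h
  exact val_lt_one_of_mem_idealClosure837 hw h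

end Fermat.Agent.LT.T7.H837

end
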