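import Fermat.Agent.LT.T7.H837.ClassOpBasic
import Fermat.Agent.LT.T2.H546.MeanLin
import Fermat.Agent.LT.T2.H886.CuspAlg

/-!
# Row LT, tower T7, node T7.L2.2 SPEC-UP, leaf T7.L2.2.N.S3 `ClassOpC` (helper837, OFF-MAIN)

The general criterion: the sum of the right translates of a function `ψ` of the class by a finite
set `H` of elements which are trivial at infinity and units of the maximal order outside the level
lies in the class as soon as `∑_{h ∈ H} ψ(x a h) = ∑_{h ∈ H} ψ(x h)` for `a` in the level group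
and in the Iwahori subgroups along the orbit.
-/

set_option autoImplicit false
set_option linter.style.haveILetI false
set_option linter.unusedSectionVars false
set_option linter.unusedVariables false

open IsDedekindDomain NumberField MeasureTheory AutomorphicForm
open Fermat.Agent.LT.H556.A0

noncomputable section

namespace Fermat.Agent.LT.T7.H837

open Fermat.Agent.LT Fermat.Agent.LT.H129 Fermat.Agent.LT.T2.H333 Fermat.Agent.LT.T2.H429

variable {K : Type} [Field K] [NumberField K]

/-! ## 4. Conjugation of Hecke coset systems -/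

theorem isIntegralAt_conj837 {v : HeightOneSpectrum (𝓞 K)} {h t : G K} (hh : IsIntegralAt v h)
    (hh' : IsIntegralAt v h⁻¹) (ht : IsIntegralAt v t) : IsIntegralAt v (h⁻¹ * t * h) :=
  isIntegralAt_mul837 (isIntegralAt_mul837 hh' ht) hh

theorem det_finComp_conj837 (v : HeightOneSpectrum (𝓞 K)) (h t : G K) :
    (finComp v (h⁻¹ * t * h)).det = (finComp v t).det := by
  rw [finComp_conj837, Matrix.det_mul, Matrix.det_mul, mul_right_comm, ← Matrix.det_mul,
    finComp_inv_mul837, Matrix.det_one, one_mul]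

theorem conj_injective837 (h : G K) : Function.Injective fun t : G K => h⁻¹ * t * h := by
  intro a b hab
  exact mul_left_cancel (mul_right_cancel hab)

theorem isHeckeCosetSystem_conj837 [DecidableEq (G K)] {v : HeightOneSpectrum (𝓞 K)}
    {H : Finset (G K)} (hH : IsHeckeCosetSystem v H) {h : G K} (hh : IsIntegralAt v h)
    (hh' : IsIntegralAt v h⁻¹) : IsHeckeCosetSystem v (H.image fun t => h⁻¹ * t * h) := by
  refine ⟨?_, ?_, ?_⟩
  · rw [Finset.card_image_of_injective _ (conj_injective837 h)]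
    exact hH.1
  · intro x hx
    obtain ⟨t, ht, rfl⟩ := Finset.mem_image.1 hx
    obtain ⟨h1, h2, h3⟩ := hH.2.1 t ht
    refine ⟨isLocalAtFin_conj837 h h1, isIntegralAt_conj837 hh hh' h2, ?_⟩
    rw [det_finComp_conj837]
    exact h3
  · intro x hx x' hx' hne
    obtain ⟨t, ht, rfl⟩ := Finset.mem_image.1 hx
    obtain ⟨t', ht', rfl⟩ := Finset.mem_image.1 hx'
    have hne' : t ≠ t' := fun e => hne (by rw [e])
    intro hint
    apply hH.2.2 t ht t' ht' hne'
    have e : t⁻¹ * t' = h * ((h⁻¹ * t * h)⁻¹ * (h⁻¹ * t' * h)) * h⁻¹ := by group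
    rw [e]
    exact isIntegralAt_mul837 (isIntegralAt_mul837 hh hint) hh'

theorem isScalarUniformizerAt_conj837 {v : HeightOneSpectrum (𝓞 K)} {z : G K}
    (hz : IsScalarUniformizerAt v z) (h : G K) : IsScalarUniformizerAt v (h⁻¹ * z * h) := by
  obtain ⟨hloc, c, hc, hzc⟩ := hz
  refine ⟨isLocalAtFin_conj837 h hloc, c, hc, ?_⟩
  rw [finComp_conj837, hzc]
  have e : Matrix.diagonal (fun _ : Fin 2 => c)
      = c • (1 : Matrix (Fin 2) (Fin 2) (v.adicCompletion K)) := by
    ext i j
    by_cases hij : i = j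
    · subst hij
      simp
    · simp [hij]
  rw [e, Matrix.mul_smul, Matrix.smul_mul, mul_one, finComp_inv_mul837]

/-! ## 5. Continuity, bounds, cuspidality of the sums of translates -/

theorem continuous_cosetOp837 {ψ : G K → ℂ} (hψ : Continuous ψ) (H : Finset (G K)) :
    Continuous (cosetOp H ψ) := by
  unfold cosetOp
  exact continuous_finsetSum H fun h _ => hψ.comp (continuous_id.mul continuous_const)

theorem bdd_cosetOp837 {ψ : G K → ℂ} {C : ℝ} (hψ : ∀ g : G K, ‖ψ g‖ ≤ C) (H : Finset (G K))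
    (g : G K) : ‖cosetOp H ψ g‖ ≤ H.card * C := by
  unfold cosetOp
  refine (norm_sum_le _ _).trans ?_
  have := Finset.sum_le_card_nsmul H (fun h => ‖ψ (g * h)‖) C (fun h _ => hψ (g * h))
  rw [nsmul_eq_mul] at this
  exact this

theorem isCuspidalFn_cosetOp837 {ψ : G K → ℂ} (hc : Continuous ψ) {C : ℝ}
    (hb : ∀ g : G K, ‖ψ g‖ ≤ C) (hψ : IsCuspidalFn ψ) (H : Finset (G K)) :
    IsCuspidalFn (cosetOp H ψ) := by
  classical
  induction H using Finset.induction_on with
  | empty =>
    have e : cosetOp (∅ : Finset (G K)) ψ = fun _ => (0 : ℂ) := by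
      funext x
      simp [cosetOp]
    rw [e]
    exact T2.H886.isCuspidalFn_zero886
  | insert a s ha ih =>
    have e : cosetOp (insert a s) ψ = fun x => ψ (x * a) + cosetOp s ψ x := by
      funext x
      simp only [cosetOp]
      rw [Finset.sum_insert ha]
    rw [e]
    exact T2.H886.isCuspidalFn_add886 (hc.comp (continuous_id.mul continuous_const))
      (fun g => hb (g * a)) (continuous_cosetOp837 hc s) (bdd_cosetOp837 hb s)
      (T2.H886.isCuspidalFn_shift886 a hψ) ih

/-! ## 6. The sphere means of a sum of translates -/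

/-- The double integral of a finite sum of continuous functions. -/
theorem integral_integral_sum837 {ι : Type*} (s : Finset ι) (F : ι → ℝ → ℝ → ℂ)
    (hF : ∀ i ∈ s, Continuous (Function.uncurry (F i))) (a b c d : ℝ) :
    (∫ α in a..b, ∫ β in c..d, ∑ i ∈ s, F i α β)
      = ∑ i ∈ s, ∫ α in a..b, ∫ β in c..d, F i α β := by
  have hin : ∀ α : ℝ, (∫ β in c..d, ∑ i ∈ s, F i α β) = ∑ i ∈ s, ∫ β in c..d, F i α β := by
    intro α
    apply intervalIntegral.integral_finsetSum
    intro i hi
    exact ((hF i hi).comp (Continuous.prodMk_right α)).intervalIntegrable c d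
  rw [funext hin]
  apply intervalIntegral.integral_finsetSum
  intro i hi
  exact (intervalIntegral.continuous_parametric_intervalIntegral_of_continuous' (hF i hi)
    c d).intervalIntegrable a b

/-- The sphere means of a sum of translates by elements which are trivial at infinity. -/
theorem meanEig_cosetOp837 {ψ : G K → ℂ} (hc : Continuous ψ) {w : InfinitePlace K} {m : ℝ → ℂ}
    (hψ : MeanEig ψ w m) {H : Finset (G K)}
    (hH : ∀ h ∈ H, ∀ w' : InfinitePlace K, TrivAtInf w' h) : MeanEig (cosetOp H ψ) w m := by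
  intro d hd Y hY g
  have hYc : Continuous fun p : ℝ × ℝ => Y p.1 p.2 :=
    T2.H546.continuous_sphere_h546 (fun w X _ h => T2.H472.locCont472 K w X h) hY
  have hcomm : ∀ h ∈ H, ∀ α β : ℝ, g * Y α β * h = g * h * Y α β := by
    intro h hh α β
    rw [mul_assoc, comm_inf837 (hY α β).1 (hH h hh), ← mul_assoc]
  have e1 : (fun α : ℝ => ∫ β in (0 : ℝ)..Real.pi,
        cosetOp H ψ (g * Y α β) * ((Real.sin β : ℝ) : ℂ))
      = fun α : ℝ => ∫ β in (0 : ℝ)..Real.pi,
        ∑ h ∈ H, ψ (g * h * Y α β) * ((Real.sin β : ℝ) : ℂ) := by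
    funext α
    congr 1
    funext β
    unfold cosetOp
    rw [Finset.sum_mul]
    exact Finset.sum_congr rfl fun h hh => by rw [hcomm h hh α β]
  rw [e1]
  rw [integral_integral_sum837 H
    (fun (h : G K) (α β : ℝ) => ψ (g * h * Y α β) * ((Real.sin β : ℝ) : ℂ))
    (fun h _ => T2.H546.continuous_sphere_integrand_h546 hYc hc (g * h))]
  unfold cosetOp
  rw [Finset.mul_sum]
  exact Finset.sum_congr rfl fun h _ => hψ d hd Y hY (g * h)

/-! ## 7. The general criterion -/

/-- The hypotheses on the finite set of translations. -/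
structure IsGoodSet837 (𝔫 : Ideal (𝓞 K)) (l : ℕ) (o : ℕ → HeightOneSpectrum (𝓞 K))
    (ψ : G K → ℂ) (H : Finset (G K)) : Prop where
  triv_inf : ∀ h ∈ H, ∀ w : InfinitePlace K, TrivAtInf w h
  unit_good : ∀ h ∈ H, ∀ v : HeightOneSpectrum (𝓞 K), ¬ v.asIdeal ∣ 𝔫 →
    IsIntegralAt v h ∧ IsIntegralAt v h⁻¹
  level : ∀ u : G K, InLevelGroup 𝔫 u → ∀ x : G K,
    ∑ h ∈ H, ψ (x * u * h) = ∑ h ∈ H, ψ (x * h)
  iw : ∀ k : G K, (∀ w : InfinitePlace K, TrivAtInf w k) →
    (∀ v : HeightOneSpectrum (𝓞 K), (∀ j < l, v ≠ o j) → TrivAtFin v k) →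
    (∀ j < l, T5.InIwahori (o j) k) → ∀ x : G K,
    ∑ h ∈ H, ψ (x * k * h) = ∑ h ∈ H, ψ (x * h)

/-- An element which is trivial at the finite places commutes with an element which is trivial
at infinity. -/
theorem comm_ray837 {r h : G K} (hr : ∀ v : HeightOneSpectrum (𝓞 K), TrivAtFin v r)
    (hh : ∀ w : InfinitePlace K, TrivAtInf w h) : r * h = h * r := by
  apply commute_of_disjoint429
  · intro w
    exact Or.inr ((trivAtInf_iff129 w h).1 (hh w))
  · intro v
    exact Or.inl ((trivAtFin_iff129 v r).1 (hr v))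

/-- **The general criterion.** -/
theorem isEigFn_cosetOp837 {𝔫 : Ideal (𝓞 K)} {r : G K} {l : ℕ}
    {o : ℕ → HeightOneSpectrum (𝓞 K)} {C : EigData K} {ψ : G K → ℂ} {H : Finset (G K)}
    (hr : T5.IsRayGen r) (hψ : IsEigFn 𝔫 r l o ψ C) (hH : IsGoodSet837 𝔫 l o ψ H) :
    IsEigFn 𝔫 r l o (cosetOp H ψ) C := by
  classical
  obtain ⟨C0, hC0⟩ := hψ.inv.cusp.bdd
  have hloc : ∀ (w : InfinitePlace K) (k : G K), IsLocalAtInf w k → ∀ h ∈ H, ∀ g : G K,
      g * k * h = g * h * k := by
    intro w k hk h hh g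
    rw [mul_assoc, comm_inf837 hk (hH.triv_inf h hh), ← mul_assoc]
  refine ⟨⟨⟨continuous_cosetOp837 hψ.inv.cusp.cont H, ⟨H.card * C0, bdd_cosetOp837 hC0 H⟩,
    ⟨?_, ?_, ?_, ?_⟩, isCuspidalFn_cosetOp837 hψ.inv.cusp.cont hC0 hψ.inv.cusp.cuspidal H⟩,
    ?_, ?_⟩, ?_, ?_⟩
  · -- left invariance
    intro γ g
    unfold cosetOp
    exact Finset.sum_congr rfl fun h _ => by
      rw [mul_assoc]
      exact hψ.inv.cusp.aut.left_inv γ (g * h)
  · -- level
    intro u hu g
    exact hH.level u hu g
  · -- the compact subgroups at infinity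
    intro w k hk g
    unfold cosetOp
    rw [Finset.mul_sum]
    exact Finset.sum_congr rfl fun h hh => by
      rw [hloc w k hk.1 h hh g]
      exact hψ.inv.cusp.aut.arch_compact w k hk (g * h)
  · -- the ray
    intro g
    unfold cosetOp
    exact Finset.sum_congr rfl fun h hh => by
      rw [mul_assoc, comm_ray837 hr.1 (hH.triv_inf h hh), ← mul_assoc]
      exact hψ.inv.cusp.aut.ray (g * h)
  · -- the positive scalars at infinity
    intro w z hz g
    unfold cosetOp
    exact Finset.sum_congr rfl fun h hh => by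
      rw [hloc w z hz.1 h hh g]
      exact hψ.inv.arch_scalar w z hz (g * h)
  · -- the Iwahori subgroups
    intro k hk1 hk2 hk3 x
    exact hH.iw k hk1 hk2 hk3 x
  · -- the Hecke operators outside the level
    intro v hv
    refine ⟨fun H' hH' g => ?_, fun z hz g => ?_⟩
    · unfold cosetOp
      rw [Finset.sum_comm, Finset.mul_sum]
      refine Finset.sum_congr rfl fun h hh => ?_
      obtain ⟨hi, hi'⟩ := hH.unit_good h hh v hv
      have hsys := isHeckeCosetSystem_conj837 hH' hi hi'
      have := (hψ.hecke v hv).1 _ hsys (g * h)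
      rw [Finset.sum_image (fun a _ b _ hab => conj_injective837 h hab)] at this
      rw [← this]
      refine Finset.sum_congr rfl fun t _ => ?_
      congr 1
      group
    · unfold cosetOp
      rw [Finset.mul_sum]
      refine Finset.sum_congr rfl fun h hh => ?_
      have := (hψ.hecke v hv).2 _ (isScalarUniformizerAt_conj837 hz h) (g * h)
      rw [← this]
      congr 1
      group
  · -- the sphere means
    intro w
    exact meanEig_cosetOp837 hψ.inv.cusp.cont (hψ.mean w) hH.triv_inf

end Fermat.Agent.LT.T7.H837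

end
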